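import Fermat.Agent.S28.ModEq.Data

/-!
# S28, WP5: from the factorizations over `ℂ((t))` to the integral package `ModEqData`

Input: integral polynomials `Φ Ψ S ∈ ℤ[Y][X]` and `κ ∈ ℤ` whose images over `ℂ((t))`
(inner variable `Y ↦ j(t^p)`) are
* `Φ ↦ ∏_g (X - j_g)`, `Ψ ↦ ∏_g (X - y_g)`, `S ↦ ∑_g ∏_{h ≠ g} (y_h X - z_h)`,
* and `∏_g y_g = κ`.
Output: `ModEqData p` (monicity, degrees, `Ψ(0)`, the relations `E1 E2 E3 E5 E6` in `ℤ((q))`).
-/

set_option autoImplicit false

noncomputable section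

namespace Fermat.Agent.S28.ModEqX

open ModularCurve Polynomial Fermat.Agent.S28.ModEq

/-! ### Leading terms of differences -/

/-- A series with `coeff n = 1` and vanishing coefficients below `n` has leading term `t ^ n`. -/
theorem isLead_one_of_coeff {A : Type*} [CommRing A] {u : LaurentSeries A} {n : ℤ}
    (h1 : u.coeff n = 1) (h0 : ∀ k : ℤ, k < n → u.coeff k = 0) : IsLead u n 1 := by
  obtain ⟨g, hg, hg0⟩ := exists_ofPowerSeries_of_coeff_neg (HahnSeries.single (-n) (1 : A) * u)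
    (by
      intro k hk
      rw [HahnSeries.coeff_single_mul, one_mul]
      exact h0 _ (by omega))
  refine ⟨g, ?_, ?_⟩
  · rw [hg0, HahnSeries.coeff_single_mul, one_mul, sub_neg_eq_add, zero_add, h1]
  · rw [← hg, ← mul_assoc, HahnSeries.single_mul_single, add_neg_cancel, mul_one]
    exact (one_mul u).symm

/-- Subtracting a series of higher order does not change the leading term. -/
theorem isLead_sub {A : Type*} [CommRing A] {f g : LaurentSeries A} {n m : ℤ} {c : A}
    (hf : IsLead f n 1) (hg : IsLead g m c) (hnm : n < m) : IsLead (f - g) n 1 := by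
  refine isLead_one_of_coeff ?_ ?_
  · rw [HahnSeries.coeff_sub, hf.coeff_eq, hg.coeff_lt hnm, sub_zero]
  · intro k hk
    rw [HahnSeries.coeff_sub, hf.coeff_lt hk, hg.coeff_lt (hk.trans hnm), sub_zero]

/-! ### The two comparison maps `ℤ((q)) → ℂ((t))` -/

variable (p : ℕ) [NeZero p]

/-- `q ↦ t ^ p` composed with the coefficient embedding `ℤ → ℂ`. -/
def iota : LaurentSeries ℤ →+* LaurentSeries ℂ :=
  (qExpand ℂ p).comp (coeffMap (Int.castRingHom ℂ))

theorem coeffMap_int_injective : Function.Injective (coeffMap (Int.castRingHom ℂ)) := by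
  intro a b hab
  ext n
  have h := congrArg (fun s => HahnSeries.coeff s n) hab
  simp only [coeffMap_coeff] at h
  exact Int.cast_injective h

theorem iota_injective : Function.Injective (iota p) :=
  (qExpand_injective (R := ℂ) p).comp coeffMap_int_injective

theorem iota_coeff (x : LaurentSeries ℤ) (k : ℤ) :
    (iota p x).coeff ((p : ℤ) * k) = ((x.coeff k : ℤ) : ℂ) := by
  show (qExpand ℂ p (coeffMap (Int.castRingHom ℂ) x)).coeff ((p : ℤ) * k) = _
  rw [qExpand_coeff_mul, coeffMap_coeff]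
  rfl

theorem iota_jqModC : iota p (jqModC ℤ) = jbase ℂ p := by
  show qExpand ℂ p (coeffMap (Int.castRingHom ℂ) (jqModC ℤ)) = _
  rw [coeffMap_jqModC]
  rfl

theorem coeffMap_jqNModC_eq : coeffMap (Int.castRingHom ℂ) (jqNModC ℤ p) = jbase ℂ p := by
  rw [coeffMap_jqNModC]
  rfl

theorem iota_jqNModC (ζ : ℂˣ) : iota p (jqNModC ℤ p) = jg p ζ none := by
  show qExpand ℂ p (coeffMap (Int.castRingHom ℂ) (jqNModC ℤ p)) = _
  rw [coeffMap_jqNModC, jqNModC, qExpand_qExpand]
  rfl

theorem iota_yInf (ζ : ℂˣ) : iota p (yInf ℤ p) = yg p ζ none := by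
  show qExpand ℂ p (coeffMap (Int.castRingHom ℂ) (yInf ℤ p)) = _
  rw [coeffMap_yInf, yInf, map_mul, map_mul, qExpand_C, qExpand_qExpand]
  rfl

theorem iota_C (a : ℤ) : iota p (HahnSeries.C a) = HahnSeries.C ((a : ℤ) : ℂ) := by
  show qExpand ℂ p (coeffMap (Int.castRingHom ℂ) (HahnSeries.C a)) = _
  rw [HahnSeries.C_apply, coeffMap_single, ← HahnSeries.C_apply, qExpand_C]
  rfl

theorem iota_comp_evalAt :
    (iota p).comp (evalAt (RingHom.id ℤ) (jqModC ℤ)) =
      evalAt (Int.castRingHom ℂ) (jbase ℂ p) := by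
  refine Polynomial.ringHom_ext (fun a => ?_) ?_
  · rw [RingHom.comp_apply, evalAt_C, evalAt_C, RingHom.id_apply, iota_C]
    rfl
  · rw [RingHom.comp_apply, evalAt_X, evalAt_X, iota_jqModC]

theorem coeffMap_comp_evalAt :
    (coeffMap (Int.castRingHom ℂ)).comp (evalAt (RingHom.id ℤ) (jqNModC ℤ p)) =
      evalAt (Int.castRingHom ℂ) (jbase ℂ p) := by
  refine Polynomial.ringHom_ext (fun a => ?_) ?_
  · rw [RingHom.comp_apply, evalAt_C, evalAt_C, RingHom.id_apply, HahnSeries.C_apply,
      coeffMap_single, ← HahnSeries.C_apply]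
  · rw [RingHom.comp_apply, evalAt_X, evalAt_X, coeffMap_jqNModC_eq]

theorem evalAt_jbase_injective (hp : 0 < p) :
    Function.Injective (evalAt (Int.castRingHom ℂ) (jbase ℂ p)) :=
  evalAt_injective (d := p) hp (isLead_jbase (A := ℂ) p) (Int.castRingHom ℂ) Int.cast_injective

/-! ### The export theorem -/

variable {p}

theorem jg_some_zero (hp : 0 < p) (ζ : ℂˣ) : jg p ζ (some ⟨0, hp⟩) = jqModC ℂ := by
  show twist (ζ ^ (0 : ℕ)) (jqModC ℂ) = _
  rw [pow_zero, twist_one]

/-- The value of `∏ (X - a g)` at one of the `a g₀` vanishes. -/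
theorem eval_prod_X_sub_C_self {ι : Type*} [Fintype ι] {R : Type*} [CommRing R] (a : ι → R)
    (g₀ : ι) : (∏ g, (X - C (a g))).eval (a g₀) = 0 := by
  rw [Polynomial.eval_prod]
  refine Finset.prod_eq_zero (Finset.mem_univ g₀) ?_
  rw [Polynomial.eval_sub, Polynomial.eval_X, Polynomial.eval_C, sub_self]

/-- The derivative of `∏ (X - a g)` at `a g₀`. -/
theorem eval_derivative_prod_X_sub_C {ι : Type*} [Fintype ι] [DecidableEq ι] {R : Type*}
    [CommRing R] (a : ι → R) (g₀ : ι) :
    (derivative (∏ g, (X - C (a g)))).eval (a g₀) =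
      ∏ h ∈ Finset.univ.erase g₀, (a g₀ - a h) := by
  rw [Polynomial.derivative_prod_finset, Polynomial.eval_finsetSum,
    Finset.sum_eq_single g₀]
  · rw [Polynomial.derivative_sub, Polynomial.derivative_X, Polynomial.derivative_C, sub_zero,
      mul_one, Polynomial.eval_prod]
    refine Finset.prod_congr rfl fun h _ => ?_
    rw [Polynomial.eval_sub, Polynomial.eval_X, Polynomial.eval_C]
  · intro g _ hg
    rw [Polynomial.eval_mul, Polynomial.eval_prod]
    have : ∏ h ∈ Finset.univ.erase g, Polynomial.eval (a g₀) (X - C (a h)) = 0 := by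
      refine Finset.prod_eq_zero (Finset.mem_erase.mpr ⟨fun h => hg h.symm, Finset.mem_univ g₀⟩) ?_
      rw [Polynomial.eval_sub, Polynomial.eval_X, Polynomial.eval_C, sub_self]
    rw [this, zero_mul]
  · intro h
    exact absurd (Finset.mem_univ g₀) h

theorem modEqData_of_factorization (hp : p.Prime) (ζ : ℂˣ)
    (Φ Ψ S : Polynomial (Polynomial ℤ)) (κ : ℤ) (hκ : κ ^ 2 = (p : ℤ) ^ 24)
    (hΦ : Φ.map (evalAt (Int.castRingHom ℂ) (jbase ℂ p)) =
      ∏ g : Option (Fin p), (X - C (jg p ζ g)))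
    (hΨ : Ψ.map (evalAt (Int.castRingHom ℂ) (jbase ℂ p)) =
      ∏ g : Option (Fin p), (X - C (yg p ζ g)))
    (hS : S.map (evalAt (Int.castRingHom ℂ) (jbase ℂ p)) =
      ∑ g : Option (Fin p), ∏ h ∈ Finset.univ.erase g, (C (yg p ζ h) * X - C (zg p ζ h)))
    (hprod : ∏ g : Option (Fin p), yg p ζ g = HahnSeries.C ((κ : ℤ) : ℂ)) :
    Nonempty (ModEqData p) := by
  have hp0 : 0 < p := hp.pos
  set ev := evalAt (Int.castRingHom ℂ) (jbase ℂ p) with hev
  have hinj : Function.Injective ev := evalAt_jbase_injective p hp0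
  have hcard : (Finset.univ : Finset (Option (Fin p))).card = p + 1 := by
    rw [Finset.card_univ, Fintype.card_option, Fintype.card_fin]
  -- monicity and degrees
  have hdeg : ∀ a : Option (Fin p) → LaurentSeries ℂ,
      (∏ g : Option (Fin p), (X - C (a g))).natDegree = p + 1 := by
    intro a
    rw [Polynomial.natDegree_prod_of_monic _ _ (fun g _ => Polynomial.monic_X_sub_C _)]
    simp only [Polynomial.natDegree_X_sub_C, Finset.sum_const, smul_eq_mul, mul_one]
    exact hcard
  have hmon : ∀ a : Option (Fin p) → LaurentSeries ℂ,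
      (∏ g : Option (Fin p), (X - C (a g))).Monic :=
    fun a => Polynomial.monic_prod_of_monic _ _ (fun g _ => Polynomial.monic_X_sub_C _)
  have hΦm : Φ.Monic := Polynomial.monic_of_injective hinj (by rw [hΦ]; exact hmon _)
  have hΨm : Ψ.Monic := Polynomial.monic_of_injective hinj (by rw [hΨ]; exact hmon _)
  have hΦd : Φ.natDegree = p + 1 := by
    rw [← Polynomial.natDegree_map_eq_of_injective hinj, hΦ, hdeg]
  have hΨd : Ψ.natDegree = p + 1 := by
    rw [← Polynomial.natDegree_map_eq_of_injective hinj, hΨ, hdeg]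
  -- the constant coefficient of `Ψ`
  have hΨ0 : Ψ.coeff 0 = Polynomial.C ((-1) ^ (p + 1) * κ) := by
    apply hinj
    rw [← Polynomial.coeff_map, hΨ, Polynomial.coeff_zero_eq_eval_zero, Polynomial.eval_prod]
    simp only [Polynomial.eval_sub, Polynomial.eval_X, Polynomial.eval_C, zero_sub]
    rw [Finset.prod_neg, hprod, hcard, hev, evalAt_C, map_mul, map_pow, map_neg, map_one, map_mul,
      map_pow, map_neg, map_one]
    rfl
  -- E1
  have E1 : Φ.eval₂ (evalAt (RingHom.id ℤ) (jqModC ℤ)) (jqNModC ℤ p) = 0 := by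
    apply iota_injective p
    rw [Polynomial.hom_eval₂, iota_comp_evalAt, iota_jqNModC p ζ, map_zero, ← Polynomial.eval_map,
      hΦ]
    exact eval_prod_X_sub_C_self _ none
  -- E2
  have E2 : Φ.eval₂ (evalAt (RingHom.id ℤ) (jqNModC ℤ p)) (jqModC ℤ) = 0 := by
    apply coeffMap_int_injective
    rw [Polynomial.hom_eval₂, coeffMap_comp_evalAt, coeffMap_jqModC, map_zero,
      ← Polynomial.eval_map, hΦ, ← jg_some_zero hp0 ζ]
    exact eval_prod_X_sub_C_self (fun g => jg p ζ g) (some ⟨0, hp0⟩)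
  -- E3
  have E3 : Ψ.eval₂ (evalAt (RingHom.id ℤ) (jqModC ℤ)) (yInf ℤ p) = 0 := by
    apply iota_injective p
    rw [Polynomial.hom_eval₂, iota_comp_evalAt, iota_yInf p ζ, map_zero, ← Polynomial.eval_map,
      hΨ]
    exact eval_prod_X_sub_C_self _ none
  -- the common factor `W = ∏_{h ≠ ∞} (j_∞ - j_h)`
  set W : LaurentSeries ℂ := ∏ h ∈ Finset.univ.erase (none : Option (Fin p)),
    (jg p ζ none - jg p ζ h) with hW
  have hdΦ : iota p ((Polynomial.derivative Φ).eval₂ (evalAt (RingHom.id ℤ) (jqModC ℤ))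
      (jqNModC ℤ p)) = W := by
    rw [Polynomial.hom_eval₂, iota_comp_evalAt, iota_jqNModC p ζ, ← Polynomial.eval_map,
      ← Polynomial.derivative_map, hΦ]
    exact eval_derivative_prod_X_sub_C _ none
  have hSW : iota p (S.eval₂ (evalAt (RingHom.id ℤ) (jqModC ℤ)) (jqNModC ℤ p)) =
      (∏ h ∈ Finset.univ.erase (none : Option (Fin p)), yg p ζ h) * W := by
    rw [Polynomial.hom_eval₂, iota_comp_evalAt, iota_jqNModC p ζ, ← Polynomial.eval_map, hS,
      Polynomial.eval_finsetSum, Finset.sum_eq_single none]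
    · rw [Polynomial.eval_prod, hW, ← Finset.prod_mul_distrib]
      refine Finset.prod_congr rfl fun h _ => ?_
      rw [Polynomial.eval_sub, Polynomial.eval_mul, Polynomial.eval_C, Polynomial.eval_X,
        Polynomial.eval_C, zg_eq]
      ring
    · intro g _ hg
      rw [Polynomial.eval_prod]
      refine Finset.prod_eq_zero (Finset.mem_erase.mpr ⟨fun h => hg h.symm, Finset.mem_univ none⟩) ?_
      rw [Polynomial.eval_sub, Polynomial.eval_mul, Polynomial.eval_C, Polynomial.eval_X,
        Polynomial.eval_C, zg_eq]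
      ring
    · intro h
      exact absurd (Finset.mem_univ none) h
  -- E5
  have E5 : yInf ℤ p * S.eval₂ (evalAt (RingHom.id ℤ) (jqModC ℤ)) (jqNModC ℤ p) =
      HahnSeries.C κ *
        (Polynomial.derivative Φ).eval₂ (evalAt (RingHom.id ℤ) (jqModC ℤ)) (jqNModC ℤ p) := by
    apply iota_injective p
    rw [map_mul, map_mul, hSW, hdΦ, iota_yInf p ζ, iota_C, ← mul_assoc,
      Finset.mul_prod_erase _ _ (Finset.mem_univ none), hprod]
  -- E6
  have E6 : ((Polynomial.derivative Φ).eval₂ (evalAt (RingHom.id ℤ) (jqModC ℤ))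
      (jqNModC ℤ p)).coeff (-((p : ℤ) * p)) = 1 := by
    have hlead : IsLead W (∑ _h ∈ Finset.univ.erase (none : Option (Fin p)), (-((p : ℤ) * p)))
        (∏ _h ∈ Finset.univ.erase (none : Option (Fin p)), (1 : ℂ)) := by
      refine IsLead.prod _ _ _ _ ?_
      intro h hh
      have hne : h ≠ none := (Finset.mem_erase.mp hh).1
      obtain ⟨b, rfl⟩ := Option.ne_none_iff_exists'.mp hne
      have h1 : IsLead (jg p ζ none) (-((p : ℤ) * p)) 1 := by
        have := isLead_qExpand (p * p) (isLead_jqModC ℂ)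
        have e : (((p * p : ℕ) : ℤ)) * (-1) = -((p : ℤ) * p) := by push_cast; ring
        rw [e] at this
        exact this
      have h2 := isLead_twist (ζ ^ (b : ℕ)) (isLead_jqModC ℂ)
      refine isLead_sub h1 h2 ?_
      have : (2 : ℤ) ≤ p := by exact_mod_cast hp.two_le
      nlinarith
    rw [Finset.prod_const_one, Finset.sum_const, Finset.card_erase_of_mem (Finset.mem_univ none),
      hcard, Nat.add_sub_cancel, nsmul_eq_mul] at hlead
    have hc := hlead.coeff_eq
    rw [← hdΦ, show (p : ℤ) * -((p : ℤ) * p) = (p : ℤ) * (-((p : ℤ) * p)) from rfl, iota_coeff] at hc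
    exact_mod_cast hc
  exact ⟨{ Φ := Φ, Ψ := Ψ, S := S, κ := κ, Φ_monic := hΦm, Φ_natDegree := hΦd, Ψ_monic := hΨm,
           Ψ_natDegree := hΨd, κ_sq := hκ, Ψ_coeff_zero := hΨ0, E1 := E1, E2 := E2, E3 := E3,
           E5 := E5, E6 := E6 }⟩

end Fermat.Agent.S28.ModEqX
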