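import Fermat.Agent.S28.ModEq.Integral
import Fermat.Agent.S28.ModEqX.Export

/-!
# S28, WP5: existence of the integral modular-equation package (assembly)

`exists_modEqData p` for every prime `p`, from the rational polynomials `Φ₀ Ψ₀ S₀` and the
constant `κ` of `ModEq/Family.lean`, the integrality descent of `ModEq/Integral.lean` and the
export theorem `modEqData_of_factorization`.
-/

set_option autoImplicit false

noncomputable section

namespace Fermat.Agent.S28.ModEqX

open ModularCurve Polynomial Fermat.Agent.S28.ModEq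

variable (p : ℕ) [NeZero p]

theorem evQ_comp_map :
    (evQ p).comp (Polynomial.mapRingHom (Int.castRingHom ℚ)) =
      evalAt (Int.castRingHom ℂ) (jbase ℂ p) := by
  refine Polynomial.ringHom_ext (fun a => ?_) ?_
  · simp [evQ]
  · simp [evQ]

theorem map_map_evQ (F : Polynomial (Polynomial ℤ)) :
    (F.map (Polynomial.mapRingHom (Int.castRingHom ℚ))).map (evQ p) =
      F.map (evalAt (Int.castRingHom ℂ) (jbase ℂ p)) := by
  rw [Polynomial.map_map, evQ_comp_map]

/-- Integral lift of a polynomial over `ℚ[Y]` whose image has algebraic-integer coefficients. -/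
theorem exists_int (F₀ : Polynomial (Polynomial ℚ)) (G : Polynomial (LaurentSeries Zbar))
    (h : F₀.map (evQ p) = G.map (coeffMap ιZ)) :
    ∃ F : Polynomial (Polynomial ℤ),
      F.map (evalAt (Int.castRingHom ℂ) (jbase ℂ p)) = F₀.map (evQ p) := by
  obtain ⟨F, hF⟩ := exists_int_lift p F₀ G h
  exact ⟨F, by rw [← map_map_evQ, hF]⟩

/-- **The integral modular-equation package exists for every prime `p`.** -/
theorem exists_modEqData (hp : p.Prime) : Nonempty (ModEqData p) := by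
  obtain ⟨Φ₀, hΦ₀⟩ := exists_Phi0 p hp
  obtain ⟨Ψ₀, hΨ₀⟩ := exists_Psi0 p hp
  obtain ⟨S₀, hS₀⟩ := exists_S0 p hp
  obtain ⟨κq, hκ2, hκ⟩ := exists_kappa p hp
  have hζ : Units.map (ιZ : Zbar →* ℂ) (zetaZ p hp) = zetaC p := map_zetaZ p hp
  have hjg : ∀ g, coeffMap ιZ (jg p (zetaZ p hp) g) = jg p (zetaC p) g := fun g => by
    rw [coeffMap_jg, hζ]
  have hyg : ∀ g, coeffMap ιZ (yg p (zetaZ p hp) g) = yg p (zetaC p) g := fun g => by
    rw [coeffMap_yg, hζ]
  obtain ⟨Φ, hΦ⟩ := exists_int p Φ₀ (∏ g, (X - C (jg p (zetaZ p hp) g))) (by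
    rw [hΦ₀, Polynomial.map_prod]
    refine Finset.prod_congr rfl fun g _ => ?_
    rw [Polynomial.map_sub, Polynomial.map_X, Polynomial.map_C, hjg])
  obtain ⟨Ψ, hΨ⟩ := exists_int p Ψ₀ (∏ g, (X - C (yg p (zetaZ p hp) g))) (by
    rw [hΨ₀, Polynomial.map_prod]
    refine Finset.prod_congr rfl fun g _ => ?_
    rw [Polynomial.map_sub, Polynomial.map_X, Polynomial.map_C, hyg])
  obtain ⟨S, hS⟩ := exists_int p S₀ (∑ g, ∏ h ∈ Finset.univ.erase g,
      (C (yg p (zetaZ p hp) h) * (X - C (jg p (zetaZ p hp) h)))) (by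
    rw [hS₀, Polynomial.map_sum]
    refine Finset.sum_congr rfl fun g _ => ?_
    rw [Polynomial.map_prod]
    refine Finset.prod_congr rfl fun h _ => ?_
    rw [Polynomial.map_mul, Polynomial.map_C, Polynomial.map_sub, Polynomial.map_X,
      Polynomial.map_C, hyg, hjg])
  -- the constant `κ` is `± p ^ 12`
  have hκcases : κq = (p : ℚ) ^ 12 ∨ κq = -(p : ℚ) ^ 12 := by
    have h0 : (κq - (p : ℚ) ^ 12) * (κq + (p : ℚ) ^ 12) = 0 := by
      have : (κq - (p : ℚ) ^ 12) * (κq + (p : ℚ) ^ 12) = κq ^ 2 - (p : ℚ) ^ 24 := by ring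
      rw [this, hκ2, sub_self]
    rcases mul_eq_zero.mp h0 with h | h
    · left; linarith
    · right; linarith
  obtain ⟨κ, hκZ, hκsq⟩ : ∃ κ : ℤ, ((κ : ℤ) : ℚ) = κq ∧ κ ^ 2 = (p : ℤ) ^ 24 := by
    rcases hκcases with h | h
    · exact ⟨(p : ℤ) ^ 12, by push_cast; exact h.symm, by ring⟩
    · exact ⟨-(p : ℤ) ^ 12, by push_cast; exact h.symm, by ring⟩
  refine modEqData_of_factorization hp (zetaC p) Φ Ψ S κ hκsq (hΦ.trans hΦ₀) (hΨ.trans hΨ₀) ?_ ?_
  · rw [hS, hS₀]
    refine Finset.sum_congr rfl fun g _ => Finset.prod_congr rfl fun h _ => ?_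
    rw [zg_eq, Polynomial.C_mul]
    ring
  · rw [hκ, ← hκZ]
    push_cast
    rfl

end Fermat.Agent.S28.ModEqX
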